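import Fermat.Agent.S48.Iface

/-!
# S48-GEO, file `CharLift`: Dirichlet characters with values in `ℂ` come from `ℚ̄`
-/

set_option autoImplicit false

namespace Fermat.Agent.S48.Geo

open Polynomial

/-- roots of unity of `ℂ` lie in the image of `ι`  (`X ^ n - 1` splits over `ℚ̄`:
`IsAlgClosed.splits`, `Polynomial.roots_map` / `Splits.roots_map`). -/
theorem CharLift_exists_preimage (ι : Qb →+* ℂ) {n : ℕ} (hn : n ≠ 0) {z : ℂ} (hz : z ^ n = 1) :
    ∃ x : Qb, ι x = z := by
  have hs : (X ^ n - 1 : Qb[X]).Splits := IsAlgClosed.splits _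
  have h0 : (X ^ n - 1 : Qb[X]) ≠ 0 := (monic_X_pow_sub_C (1 : Qb) hn).ne_zero
  have hr : ((X ^ n - 1 : Qb[X]).map ι).IsRoot z := by
    simp [IsRoot, hz]
  exact hs.mem_range_of_isRoot h0 hr

/-- `ε u ^ φ(N) = 1` for units `u`; choose preimages; multiplicativity by injectivity of `ι`;
`MulChar.ofUnitHom`. -/
theorem charLift : CharLiftStatement := by
  intro N _ ε ι
  have key : ∀ u : (ZMod N)ˣ, ∃ x : Qb, ι x = ε (u : ZMod N) := by
    intro u
    refine CharLift_exists_preimage ι (n := Fintype.card (ZMod N)ˣ) Fintype.card_ne_zero ?_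
    rw [← map_pow, ← Units.val_pow_eq_pow_val, pow_card_eq_one, Units.val_one, map_one]
  choose s hs using key
  have hs0 : ∀ u, s u ≠ 0 := by
    intro u h
    have h1 := hs u
    rw [h, map_zero] at h1
    exact (IsUnit.map ε u.isUnit).ne_zero h1.symm
  let φ : (ZMod N)ˣ →* Qbˣ :=
    { toFun := fun u => Units.mk0 (s u) (hs0 u)
      map_one' := by
        apply Units.ext
        apply ι.injective
        simp [hs]
      map_mul' := by
        intro u v
        apply Units.ext
        apply ι.injective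
        simp [hs] }
  refine ⟨MulChar.ofUnitHom φ, fun x => ?_⟩
  by_cases hx : IsUnit x
  · obtain ⟨u, rfl⟩ := hx
    rw [MulChar.ofUnitHom_coe]
    exact hs u
  · rw [MulChar.map_nonunit _ hx, MulChar.map_nonunit _ hx, map_zero]

end Fermat.Agent.S48.Geo
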