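import Fermat.Agent.S48.Iface

/-!
# S48-GEO, file `Chi`: the product character, transfer of `HasQuadModule`
-/

set_option autoImplicit false

namespace Fermat.Agent.S48.Geo

/-- the character `e ψ` modulo `M`. -/
noncomputable def chi {N ℓ M : ℕ} (hN : N ∣ M) (hℓ : ℓ ∣ M) (e : DirichletCharacter Qb N)
    (ψ : DirichletCharacter Qb ℓ) : DirichletCharacter Qb M :=
  DirichletCharacter.changeLevel hN e * DirichletCharacter.changeLevel hℓ ψ

/-- `DirichletCharacter.changeLevel_eq_cast_of_dvd`, `ZMod.cast_intCast`. -/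
theorem chi_intCast {N ℓ M : ℕ} (hN : N ∣ M) (hℓ : ℓ ∣ M) (e : DirichletCharacter Qb N)
    (ψ : DirichletCharacter Qb ℓ) (d : ℤ) (hd : IsUnit (d : ZMod M)) :
    chi hN hℓ e ψ (d : ZMod M) = e (d : ZMod N) * ψ (d : ZMod ℓ) := by
  obtain ⟨u, hu⟩ := hd
  unfold chi
  rw [MulChar.mul_apply, ← hu, DirichletCharacter.changeLevel_eq_cast_of_dvd,
    DirichletCharacter.changeLevel_eq_cast_of_dvd, hu, ZMod.cast_intCast hN, ZMod.cast_intCast hℓ]

theorem chi_natCast {N ℓ M : ℕ} (hN : N ∣ M) (hℓ : ℓ ∣ M) (e : DirichletCharacter Qb N)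
    (ψ : DirichletCharacter Qb ℓ) (p : ℕ) (hp : p.Coprime M) :
    chi hN hℓ e ψ (p : ZMod M) = e (p : ZMod N) * ψ (p : ZMod ℓ) := by
  have h := chi_intCast hN hℓ e ψ (p : ℤ) (by
    rw [Int.cast_natCast]
    exact (ZMod.isUnit_iff_coprime p M).2 hp)
  simpa only [Int.cast_natCast] using h

theorem hasQuadModule_congr {M N ℓ : ℕ} {Λ : ValuationSubring Qb} {t d t' d' : ℕ → Qb}
    (h : HasQuadModule M ℓ Λ t d)
    (hp : ∀ p : ℕ, p.Prime → ¬ p ∣ N * ℓ →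
      ¬ p ∣ M * ℓ ∧ res Λ (t p) = res Λ (t' p) ∧ res Λ (d p) = res Λ (d' p)) :
    HasQuadModule N ℓ Λ t' d' := by
  obtain ⟨W, i1, i2, i3, i4, r, hr, H⟩ := h
  refine ⟨W, i1, i2, i3, i4, r, hr, fun p hpp hpN A hA => ?_⟩
  obtain ⟨h1, h2, h3⟩ := hp p hpp hpN
  refine ⟨(H p hpp h1 A hA).1, fun σ hσ => ?_⟩
  rw [← h2, ← h3]
  exact (H p hpp h1 A hA).2 σ hσ

end Fermat.Agent.S48.Geo
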