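import Fermat.Agent.S48.Iface

/-!
# S48-GEO, file `Place`: elementary facts on a place `Λ` of `ℚ̄`
-/

set_option autoImplicit false

namespace Fermat.Agent.S48.Geo

variable {Λ : ValuationSubring Qb}

/-- valuation rings are integrally closed. -/
theorem Place_mem_of_isIntegral (Λ : ValuationSubring Qb) {x : Qb} (hx : IsIntegral ℤ x) :
    x ∈ Λ := by
  have h1 : IsIntegral Λ x := hx.tower_top
  obtain ⟨y, hy⟩ := (IsIntegrallyClosed.isIntegral_iff (R := Λ) (K := Qb)).1 h1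
  rw [← hy]
  exact y.2

theorem Place_add_mem {x y : Qb} (hx : x ∈ Λ.nonunits) (hy : y ∈ Λ.nonunits) :
    x + y ∈ Λ.nonunits := by
  rw [ValuationSubring.mem_nonunits_iff] at *
  exact lt_of_le_of_lt (Λ.valuation.map_add x y) (max_lt hx hy)

theorem Place_mul_mem {x y : Qb} (hx : x ∈ Λ) (hy : y ∈ Λ.nonunits) : x * y ∈ Λ.nonunits := by
  rw [ValuationSubring.mem_nonunits_iff] at *
  rw [← ValuationSubring.valuation_le_one_iff] at hx
  rw [map_mul]
  exact lt_of_le_of_lt (mul_le_of_le_one_left' hx) hy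

theorem Place_neg_mem {x : Qb} (hx : x ∈ Λ.nonunits) : -x ∈ Λ.nonunits := by
  rw [ValuationSubring.mem_nonunits_iff] at *
  rwa [Valuation.map_neg]

theorem Place_zero_mem : (0 : Qb) ∈ Λ.nonunits := by
  rw [ValuationSubring.mem_nonunits_iff, map_zero]
  exact zero_lt_one

theorem Place_mem_of_nonunits {x : Qb} (hx : x ∈ Λ.nonunits) : x ∈ Λ := by
  rw [ValuationSubring.mem_nonunits_iff] at hx
  rw [← ValuationSubring.valuation_le_one_iff]
  exact hx.le

theorem Place_one_not_mem : (1 : Qb) ∉ Λ.nonunits := by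
  rw [ValuationSubring.mem_nonunits_iff, map_one]
  exact lt_irrefl _

theorem Place_sum_mem {α : Type*} (s : Finset α) (F : α → Qb) (h : ∀ i ∈ s, F i ∈ Λ.nonunits) :
    ∑ i ∈ s, F i ∈ Λ.nonunits := by
  classical
  induction s using Finset.induction_on with
  | empty => simp
  | insert a s ha ih =>
    rw [Finset.sum_insert ha]
    exact Place_add_mem (h a (Finset.mem_insert_self a s))
      (ih fun i hi => h i (Finset.mem_insert_of_mem hi))

/-- `D x ∈ Λ`, `ℓ ∤ D` `⟹` `x ∈ Λ`  (Bezout: `u D + v ℓ = 1`; if `x ∉ Λ` then `x⁻¹ ∈ 𝔪`,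
`D = (D x) x⁻¹ ∈ 𝔪`, so `1 ∈ 𝔪`). -/
theorem Place_mem_of_natCast_mul {ℓ : ℕ} (hℓ : ℓ.Prime) (hΛ : Λ.LiesOverPrime ℓ) {D : ℕ}
    (hD : ¬ ℓ ∣ D) {x : Qb} (hx : (D : Qb) * x ∈ Λ) : x ∈ Λ := by
  by_contra hxΛ
  have hx0 : x ≠ 0 := fun h => hxΛ (h ▸ Λ.zero_mem)
  have hinv : x⁻¹ ∈ Λ.nonunits := by
    rw [ValuationSubring.mem_nonunits_iff, map_inv₀]
    rw [← ValuationSubring.valuation_le_one_iff, not_le] at hxΛ
    exact inv_lt_one_of_one_lt₀ hxΛ
  have hDm : (D : Qb) ∈ Λ.nonunits := by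
    have := Place_mul_mem hx hinv
    rwa [mul_assoc, mul_inv_cancel₀ hx0, mul_one] at this
  have hcop : IsCoprime (ℓ : ℤ) (D : ℤ) := by
    rw [Nat.isCoprime_iff_coprime]
    exact (Nat.Prime.coprime_iff_not_dvd hℓ).2 hD
  obtain ⟨u, v, huv⟩ := hcop
  have h1 : (u : Qb) * (ℓ : Qb) + (v : Qb) * (D : Qb) = 1 := by exact_mod_cast congrArg (fun z : ℤ => (z : Qb)) huv
  apply Place_one_not_mem (Λ := Λ)
  rw [← h1]
  exact Place_add_mem (Place_mul_mem (intCast_mem Λ u) hΛ) (Place_mul_mem (intCast_mem Λ v) hDm)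

/-- values of Dirichlet characters are integral (`0` or a root of unity). -/
theorem Place_char_mem (Λ : ValuationSubring Qb) {n : ℕ} [NeZero n] (e : DirichletCharacter Qb n)
    (x : ZMod n) : e x ∈ Λ := by
  by_cases hx : IsUnit x
  · apply Place_mem_of_isIntegral
    obtain ⟨u, rfl⟩ := hx
    have h1 : (e (u : ZMod n)) ^ (Fintype.card (ZMod n)ˣ) = 1 := by
      rw [← map_pow, ← Units.val_pow_eq_pow_val, pow_card_eq_one, Units.val_one, map_one]
    exact IsIntegral.of_pow Fintype.card_pos (h1 ▸ isIntegral_one)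
  · rw [MulChar.map_nonunit e hx]
    exact Λ.zero_mem

theorem Place_res_eq {x y : Qb} (hx : x ∈ Λ) (hy : y ∈ Λ) (h : x - y ∈ Λ.nonunits) :
    res Λ x = res Λ y := by
  unfold res
  rw [dif_pos hx, dif_pos hy, ← sub_eq_zero, ← map_sub, IsLocalRing.residue_eq_zero_iff]
  obtain ⟨hm, hm'⟩ := ValuationSubring.mem_nonunits_iff_exists_mem_maximalIdeal.1 h
  exact hm'

end Fermat.Agent.S48.Geo
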