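import Fermat.Agent.S48.Geo.Coeff
import Fermat.Agent.S48.Geo.Place
import Fermat.Agent.S48.Geo.Chi
import Fermat.Agent.S48.Geo.CharLift

/-!
# S48-GEO: `GeoStatement` from `Neb + Depl + Eis + G1Main + Alg`
-/

set_option autoImplicit false

open CongruenceSubgroup UpperHalfPlane
open scoped MatrixGroups ModularForm

namespace Fermat.Agent.S48.Geo

/-- the coefficient ring is contained in `Λ`. -/
theorem Main_coeffRing_le {N : ℕ} [NeZero N] {a : ℕ → Qb} (e : DirichletCharacter Qb N)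
    {Λ : ValuationSubring Qb} (ha : ∀ p : ℕ, p.Prime → ¬ p ∣ N → a p ∈ Λ) :
    coeffRing N a e ≤ Λ.toSubring := by
  unfold coeffRing
  rw [Subring.closure_le]
  rintro x (⟨p, hp, hpN, rfl⟩ | ⟨y, rfl⟩)
  · exact ha p hp hpN
  · exact Place_char_mem Λ e y

/-- the convolution `b = a' * c`. -/
noncomputable def conv (a' c : ℕ → Qb) (n : ℕ) : Qb :=
  ∑ ij ∈ Finset.HasAntidiagonal.antidiagonal n, a' ij.1 * c ij.2

/-- `b_n ≡ a'_n`. -/
theorem Main_conv_sub {Λ : ValuationSubring Qb} {a' c : ℕ → Qb} (ha' : ∀ n, a' n ∈ Λ)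
    (hc0 : c 0 = 1) (hc : ∀ n, n ≠ 0 → c n ∈ Λ.nonunits) (n : ℕ) :
    conv a' c n - a' n ∈ Λ.nonunits := by
  have hmem : (n, 0) ∈ Finset.HasAntidiagonal.antidiagonal n := by simp
  unfold conv
  rw [← Finset.add_sum_erase _ _ hmem]
  simp only [hc0, mul_one, add_sub_cancel_left]
  apply Place_sum_mem
  rintro ⟨i, j⟩ hij
  rw [Finset.mem_erase, Finset.HasAntidiagonal.mem_antidiagonal] at hij
  refine Place_mul_mem (ha' i) (hc j ?_)
  rintro rfl
  apply hij.1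
  have : i = n := by simpa using hij.2
  rw [this]

theorem Main_conv_mem {Λ : ValuationSubring Qb} {a' c : ℕ → Qb} (ha' : ∀ n, a' n ∈ Λ)
    (hc0 : c 0 = 1) (hc : ∀ n, n ≠ 0 → c n ∈ Λ.nonunits) (n : ℕ) :
    conv a' c n ∈ Λ := by
  have h := Place_mem_of_nonunits (Main_conv_sub ha' hc0 hc n)
  have := Λ.add_mem _ _ h (ha' n)
  rwa [sub_add_cancel] at this

theorem geo_of (hNeb : NebStatement) (hDepl : DeplStatement) (hEis : EisStatement)
    (hG1 : G1MainStatement) (hAlg : AlgStatement) : GeoStatement := by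
  intro N _ ε f hf ι a e ha he
  have hneb := hNeb N ε f hf
  obtain ⟨N', hNN', f', hN'0, hprimes, hneb', hq'⟩ := hDepl N ε f hneb
  obtain ⟨a₀, K, D, hK, hD, ha₀⟩ := hAlg N ε f hf ι
  have haa : ∀ p : ℕ, p.Prime → ¬ p ∣ N → IsIntegral ℤ ((D : Qb) * a p) := by
    intro p hp hpN
    have h1 : a p = a₀ p := ι.injective (by rw [ha p hp hpN, (ha₀ p hp hpN).1])
    rw [h1]
    exact (ha₀ p hp hpN).2.2
  obtain ⟨a', ha'mem, ha'⟩ := Coeff_exists hf ι a e ha he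
  refine ⟨max D 4, fun ℓ hℓ hB Λ hΛ => ?_⟩
  have hDℓ : ¬ ℓ ∣ D := fun h => by
    have h1 := Nat.le_of_dvd (Nat.pos_of_ne_zero hD) h
    have h2 : D < ℓ := lt_of_le_of_lt (le_max_left _ _) hB
    omega
  have h5 : 5 ≤ ℓ := by
    have h2 : 4 < ℓ := lt_of_le_of_lt (le_max_right _ _) hB
    omega
  have haΛ : ∀ p : ℕ, p.Prime → ¬ p ∣ N → a p ∈ Λ := fun p hp hpN =>
    Place_mem_of_natCast_mul hℓ hΛ hDℓ (Place_mem_of_isIntegral Λ (haa p hp hpN))
  have ha'Λ : ∀ n, a' n ∈ Λ := fun n => Main_coeffRing_le e haΛ (ha'mem n)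
  obtain ⟨E, ψ, c, hnebE, hcE, hc0, hcn, hψ⟩ := hEis ι ℓ hℓ h5 Λ hΛ
  obtain ⟨g, hg⟩ := Prod_exists f' E
  have : NeZero (N' * ℓ) := ⟨Nat.mul_ne_zero hN'0 hℓ.ne_zero⟩
  have : NeZero ℓ := ⟨hℓ.ne_zero⟩
  have hNM : N ∣ N' * ℓ := Dvd.dvd.mul_right hNN' ℓ
  have hℓM : ℓ ∣ N' * ℓ := Dvd.intro_left N' rfl
  obtain ⟨χ, hχ⟩ : ∃ χ, χ = chi hNM hℓM e ψ := ⟨_, rfl⟩
  obtain ⟨t, ht⟩ : ∃ t : ℕ → Qb, ∀ p, t p = if p.Prime ∧ ¬ p ∣ N then a p else 0 := ⟨_, fun _ => rfl⟩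
  have hsub := Main_conv_sub ha'Λ hc0 hcn
  have hmem := Main_conv_mem ha'Λ hc0 hcn
  -- facts on primes not dividing `M`
  have hpfacts : ∀ p : ℕ, p.Prime → ¬ p ∣ N' * ℓ →
      ¬ p ∣ N ∧ t p = a p ∧ (p : Qb) * χ (p : ZMod (N' * ℓ)) ∈ Λ ∧
        (p : Qb) * χ (p : ZMod (N' * ℓ)) - e (p : ZMod N) ∈ Λ.nonunits := by
    intro p hp hpM
    have hpN : ¬ p ∣ N := fun h => hpM (h.trans hNM)
    have hpℓ : ¬ ℓ ∣ p := fun h => hpM (by
      rw [← (Nat.prime_dvd_prime_iff_eq hℓ hp).1 h]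
      exact hℓM)
    refine ⟨hpN, by rw [ht, if_pos ⟨hp, hpN⟩], ?_, ?_⟩
    · exact Λ.mul_mem _ _ (natCast_mem Λ p) (Place_char_mem Λ χ _)
    · have hcop : p.Coprime (N' * ℓ) := (Nat.Prime.coprime_iff_not_dvd hp).2 hpM
      rw [hχ, chi_natCast hNM hℓM e ψ p hcop]
      have h1 := Place_mul_mem (Place_char_mem Λ e (p : ZMod N)) (hψ p hpℓ)
      have h2 : e (p : ZMod N) * ((p : Qb) * ψ (p : ZMod ℓ) - 1) =
          (p : Qb) * (e (p : ZMod N) * ψ (p : ZMod ℓ)) - e (p : ZMod N) := by ring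
      rwa [h2] at h1
  have key := hG1 (N' * ℓ) g χ ι (conv a' c) t ℓ Λ hℓ hΛ ?_ ?_ hmem ?_ ?_ ?_
  · refine hasQuadModule_congr key ?_
    intro p hp hpNℓ
    have hpM : ¬ p ∣ N' * ℓ := by
      intro h
      rcases (Nat.Prime.dvd_mul hp).1 h with h | h
      · exact hpNℓ (Dvd.dvd.mul_right (hprimes p hp h) ℓ)
      · exact hpNℓ (Dvd.dvd.mul_left h N)
    obtain ⟨hpN, htp, h1, h2⟩ := hpfacts p hp hpM
    refine ⟨?_, by rw [htp], Place_res_eq h1 (Place_char_mem Λ e _) h2⟩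
    intro h
    rcases (Nat.Prime.dvd_mul hp).1 h with h | h
    · exact hpM h
    · exact hpNℓ (Dvd.dvd.mul_left h N)
  · -- nebentypus
    rw [hg]
    refine Prod_hasNeb hneb' hnebE _ ?_
    intro d hd
    rw [hχ, chi_intCast hNM hℓM e ψ d hd, map_mul, he, map_intCast (ZMod.castHom hNN' (ZMod N))]
  · -- q-expansion
    intro n
    rw [hg, Prod_qCoeff]
    unfold conv
    rw [map_sum]
    refine Finset.sum_congr rfl fun ij _ => ?_
    rw [map_mul, hcE, ha', hq']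
  · -- nonzero mod `Λ`
    refine ⟨1, fun h => ?_⟩
    have h1 := hsub 1
    rw [Coeff_one hf ι a' ha'] at h1
    have h2 := Place_add_mem h (Place_neg_mem h1)
    have h3 : conv a' c 1 + -(conv a' c 1 - 1) = 1 := by ring
    rw [h3] at h2
    exact Place_one_not_mem h2
  · intro p
    rw [ht]
    split_ifs with h
    · exact haΛ p h.1 h.2
    · exact Λ.zero_mem
  · -- the Hecke congruence
    intro p hp hpM n
    obtain ⟨hpN, htp, h1, h2⟩ := hpfacts p hp hpM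
    have hk := Coeff_hecke hf ι a e ha he a' ha' p hp hpN n
    rw [htp]
    by_cases hpn : p ∣ n
    · rw [if_pos hpn] at hk ⊢
      have e1 : conv a' c (p * n) + (p : Qb) * χ (p : ZMod (N' * ℓ)) * conv a' c (n / p) -
          a p * conv a' c n =
          (conv a' c (p * n) - a' (p * n)) +
          ((p : Qb) * χ (p : ZMod (N' * ℓ)) * (conv a' c (n / p) - a' (n / p)) +
          (a' (n / p) * ((p : Qb) * χ (p : ZMod (N' * ℓ)) - e (p : ZMod N)) +
          -(a p * (conv a' c n - a' n)))) := by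
        linear_combination hk
      rw [e1]
      exact Place_add_mem (hsub _) (Place_add_mem (Place_mul_mem h1 (hsub _))
        (Place_add_mem (Place_mul_mem (ha'Λ _) h2)
          (Place_neg_mem (Place_mul_mem (haΛ p hp hpN) (hsub _)))))
    · rw [if_neg hpn] at hk ⊢
      have e1 : conv a' c (p * n) + (p : Qb) * χ (p : ZMod (N' * ℓ)) * 0 -
          a p * conv a' c n =
          (conv a' c (p * n) - a' (p * n)) + -(a p * (conv a' c n - a' n)) := by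
        linear_combination hk
      rw [e1]
      exact Place_add_mem (hsub _) (Place_neg_mem (Place_mul_mem (haΛ p hp hpN) (hsub _)))

end Fermat.Agent.S48.Geo
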