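import Fermat.Agent.S48.Geo.Prod

/-!
# S48-GEO, file `Coeff`: the coefficients prime to `N` are polynomials in the `a_p`, `ε(p)`
-/

set_option autoImplicit false

open CongruenceSubgroup UpperHalfPlane
open scoped MatrixGroups ModularForm

namespace Fermat.Agent.S48.Geo

/-- the ring generated by the `a_p` (`p ∤ N`) and the values of `e`. -/
noncomputable def coeffRing (N : ℕ) (a : ℕ → Qb) (e : DirichletCharacter Qb N) : Subring Qb :=
  Subring.closure ({x | ∃ p : ℕ, p.Prime ∧ ¬ p ∣ N ∧ x = a p} ∪ Set.range e)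

theorem Coeff_aux {N : ℕ} [NeZero N] {ε : DirichletCharacter ℂ N} {f : CuspForm (Gamma1 N) 1}
    (hf : Hyp N ε f) (ι : Qb →+* ℂ) (a : ℕ → Qb) (e : DirichletCharacter Qb N)
    (ha : ∀ p : ℕ, p.Prime → ¬ p ∣ N → ι (a p) = ModularFormClass.qCoeff f p)
    (he : ∀ x : ZMod N, ι (e x) = ε x) (n : ℕ) :
    n.Coprime N → ∃ x ∈ coeffRing N a e, ι x = ModularFormClass.qCoeff f n := by
  induction n using Nat.strong_induction_on with
  | _ n ih =>
    intro hn
    rcases Nat.lt_or_ge n 2 with h2 | h2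
    · interval_cases n
      · exact ⟨0, Subring.zero_mem _, by rw [map_zero, Prod_qCoeff_zero]⟩
      · exact ⟨1, Subring.one_mem _, by rw [map_one, hf.one]⟩
    · have hn1 : n ≠ 1 := by omega
      have hp : n.minFac.Prime := Nat.minFac_prime hn1
      obtain ⟨p, hpdef⟩ : ∃ p, p = n.minFac := ⟨_, rfl⟩
      rw [← hpdef] at hp
      have hpn : p ∣ n := hpdef ▸ Nat.minFac_dvd n
      obtain ⟨m, rfl⟩ := hpn
      have hcop := Nat.coprime_mul_iff_left.1 hn
      have hpN : ¬ p ∣ N := (Nat.Prime.coprime_iff_not_dvd hp).1 hcop.1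
      have hm0 : 0 < m := by
        rcases Nat.eq_zero_or_pos m with h | h
        · subst h; omega
        · exact h
      have hmlt : m < p * m := by
        have := hp.two_le
        nlinarith
      obtain ⟨x, hx, hxι⟩ := ih m hmlt hcop.2
      have hap : a p ∈ coeffRing N a e := Subring.subset_closure (Or.inl ⟨p, hp, hpN, rfl⟩)
      have hep : e (p : ZMod N) ∈ coeffRing N a e := Subring.subset_closure (Or.inr ⟨_, rfl⟩)
      have hk := hf.hecke p hp hpN m
      by_cases hpm : p ∣ m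
      · rw [if_pos hpm] at hk
        have hlt : m / p < p * m := lt_of_le_of_lt (Nat.div_le_self m p) hmlt
        have hc2 : (m / p).Coprime N := Nat.Coprime.coprime_dvd_left (Nat.div_dvd_of_dvd hpm) hcop.2
        obtain ⟨y, hy, hyι⟩ := ih (m / p) hlt hc2
        refine ⟨a p * x - e (p : ZMod N) * y,
          Subring.sub_mem _ (Subring.mul_mem _ hap hx) (Subring.mul_mem _ hep hy), ?_⟩
        rw [map_sub, map_mul, map_mul, ha p hp hpN, hxι, he, hyι, ← hk]
        ring
      · rw [if_neg hpm, mul_zero, add_zero] at hk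
        exact ⟨a p * x, Subring.mul_mem _ hap hx, by rw [map_mul, ha p hp hpN, hxι, ← hk]⟩

/-- strong induction on `n`: `n = 0`: coprime only if `N = 1`, `Prod_qCoeff_zero`; `n = 1`: `Hyp.one`;
`n > 1` coprime to `N`: `p := n.minFac`, `n = p * m`, `Hyp.hecke p _ _ m`. -/
theorem Coeff_exists {N : ℕ} [NeZero N] {ε : DirichletCharacter ℂ N} {f : CuspForm (Gamma1 N) 1}
    (hf : Hyp N ε f) (ι : Qb →+* ℂ) (a : ℕ → Qb) (e : DirichletCharacter Qb N)
    (ha : ∀ p : ℕ, p.Prime → ¬ p ∣ N → ι (a p) = ModularFormClass.qCoeff f p)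
    (he : ∀ x : ZMod N, ι (e x) = ε x) :
    ∃ a' : ℕ → Qb, (∀ n, a' n ∈ coeffRing N a e) ∧
      ∀ n, ι (a' n) = if n.Coprime N then ModularFormClass.qCoeff f n else 0 := by
  have key : ∀ n : ℕ, ∃ x ∈ coeffRing N a e,
      ι x = if n.Coprime N then ModularFormClass.qCoeff f n else 0 := by
    intro n
    by_cases hn : n.Coprime N
    · rw [if_pos hn]
      exact Coeff_aux hf ι a e ha he n hn
    · rw [if_neg hn]
      exact ⟨0, Subring.zero_mem _, map_zero _⟩
  choose a' h1 h2 using key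
  exact ⟨a', h1, h2⟩

/-- the formal Hecke relations of the depleted coefficients (injectivity of `ι`; `n` coprime to `N` iff
`p * n` is iff (`p ∣ n`) `n / p` is). -/
theorem Coeff_hecke {N : ℕ} [NeZero N] {ε : DirichletCharacter ℂ N} {f : CuspForm (Gamma1 N) 1}
    (hf : Hyp N ε f) (ι : Qb →+* ℂ) (a : ℕ → Qb) (e : DirichletCharacter Qb N)
    (ha : ∀ p : ℕ, p.Prime → ¬ p ∣ N → ι (a p) = ModularFormClass.qCoeff f p)
    (he : ∀ x : ZMod N, ι (e x) = ε x) (a' : ℕ → Qb)
    (ha' : ∀ n, ι (a' n) = if n.Coprime N then ModularFormClass.qCoeff f n else 0)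
    (p : ℕ) (hp : p.Prime) (hpN : ¬ p ∣ N) (n : ℕ) :
    a' (p * n) + e (p : ZMod N) * (if p ∣ n then a' (n / p) else 0) = a p * a' n := by
  apply ι.injective
  have hpc : p.Coprime N := (Nat.Prime.coprime_iff_not_dvd hp).2 hpN
  have h1 : (p * n).Coprime N ↔ n.Coprime N := by
    rw [Nat.coprime_mul_iff_left]
    exact ⟨fun h => h.2, fun h => ⟨hpc, h⟩⟩
  have hk := hf.hecke p hp hpN n
  rw [map_add, map_mul, map_mul, ha', ha', he, ha p hp hpN]
  by_cases hpn : p ∣ n
  · rw [if_pos hpn] at hk ⊢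
    have h2 : (n / p).Coprime N ↔ n.Coprime N := by
      obtain ⟨m, rfl⟩ := hpn
      rw [Nat.mul_div_cancel_left m hp.pos, Nat.coprime_mul_iff_left]
      exact ⟨fun h => ⟨hpc, h⟩, fun h => h.2⟩
    rw [ha']
    by_cases hn : n.Coprime N
    · rw [if_pos (h1.2 hn), if_pos (h2.2 hn), if_pos hn]
      exact hk
    · rw [if_neg (fun h => hn (h1.1 h)), if_neg (fun h => hn (h2.1 h)), if_neg hn]
      ring
  · rw [if_neg hpn] at hk ⊢
    rw [map_zero]
    by_cases hn : n.Coprime N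
    · rw [if_pos (h1.2 hn), if_pos hn]
      exact hk
    · rw [if_neg (fun h => hn (h1.1 h)), if_neg hn]
      ring

theorem Coeff_one {N : ℕ} [NeZero N] {ε : DirichletCharacter ℂ N} {f : CuspForm (Gamma1 N) 1}
    (hf : Hyp N ε f) (ι : Qb →+* ℂ) (a' : ℕ → Qb)
    (ha' : ∀ n, ι (a' n) = if n.Coprime N then ModularFormClass.qCoeff f n else 0) :
    a' 1 = 1 := by
  apply ι.injective
  rw [ha', if_pos (Nat.coprime_one_left N), hf.one, map_one]

theorem Coeff_zero {N : ℕ} [NeZero N] {f : CuspForm (Gamma1 N) 1}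
    (ι : Qb →+* ℂ) (a' : ℕ → Qb)
    (ha' : ∀ n, ι (a' n) = if n.Coprime N then ModularFormClass.qCoeff f n else 0) :
    a' 0 = 0 := by
  apply ι.injective
  rw [ha', Prod_qCoeff_zero, ite_self, map_zero]

end Fermat.Agent.S48.Geo
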