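import Fermat.Agent.S48.Iface

/-!
# S48-GEO, file `Prod`: the product of a cusp form on `Γ₁(N')` and a modular form on `Γ₁(ℓ)`
-/

set_option autoImplicit false

open CongruenceSubgroup UpperHalfPlane
open scoped MatrixGroups ModularForm

namespace Fermat.Agent.S48.Geo

theorem Prod_intCast_eq {N M : ℕ} (h : N ∣ M) {x y : ℤ} (hxy : (x : ZMod M) = (y : ZMod M)) :
    (x : ZMod N) = (y : ZMod N) := by
  have := congrArg (ZMod.castHom h (ZMod N)) hxy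
  simpa using this

theorem Prod_Gamma1_le {N M : ℕ} (h : N ∣ M) : Gamma1 M ≤ Gamma1 N := by
  intro γ hγ
  rw [Gamma1_mem] at hγ ⊢
  refine ⟨?_, ?_, ?_⟩
  · exact_mod_cast Prod_intCast_eq h (x := γ 0 0) (y := 1) (by exact_mod_cast hγ.1)
  · exact_mod_cast Prod_intCast_eq h (x := γ 1 1) (y := 1) (by exact_mod_cast hγ.2.1)
  · exact_mod_cast Prod_intCast_eq h (x := γ 1 0) (y := 0) (by exact_mod_cast hγ.2.2)

theorem Prod_Gamma0_le {N M : ℕ} (h : N ∣ M) : Gamma0 M ≤ Gamma0 N := by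
  intro γ hγ
  rw [Gamma0_mem] at hγ ⊢
  exact_mod_cast Prod_intCast_eq h (x := γ 1 0) (y := 0) (by exact_mod_cast hγ)

/-- restriction of a cusp form to a smaller group. -/
def Prod_cuspRestrict {Γ Γ' : Subgroup (GL (Fin 2) ℝ)} (h : Γ' ≤ Γ) {k : ℤ} (f : CuspForm Γ k) :
    CuspForm Γ' k where
  toFun := f
  slash_action_eq' A hA := f.slash_action_eq' A (h hA)
  holo' := f.holo'
  zero_at_cusps' hc := f.zero_at_cusps' (hc.mono h)

/-- restriction of a modular form to a smaller group. -/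
def Prod_modRestrict {Γ Γ' : Subgroup (GL (Fin 2) ℝ)} (h : Γ' ≤ Γ) {k : ℤ} (f : ModularForm Γ k) :
    ModularForm Γ' k where
  toFun := f
  slash_action_eq' A hA := f.slash_action_eq' A (h hA)
  holo' := f.holo'
  bdd_at_cusps' hc := f.bdd_at_cusps' (hc.mono h)

/-- restriction of the group (`IsCusp.mono`, `Subgroup.map_mono`) + `CuspForm.mulModularForm` + `CuspForm.mcast`. -/
theorem Prod_exists {N' ℓ : ℕ} (f' : CuspForm (Gamma1 N') 1) (E : ModularForm (Gamma1 ℓ) 1) :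
    ∃ g : CuspForm (Gamma1 (N' * ℓ)) 2, (⇑g : ℍ → ℂ) = ⇑f' * ⇑E := by
  have h1 : (Gamma1 (N' * ℓ) : Subgroup (GL (Fin 2) ℝ)) ≤ (Gamma1 N' : Subgroup (GL (Fin 2) ℝ)) :=
    Subgroup.map_mono (Prod_Gamma1_le (Dvd.intro ℓ rfl))
  have h2 : (Gamma1 (N' * ℓ) : Subgroup (GL (Fin 2) ℝ)) ≤ (Gamma1 ℓ : Subgroup (GL (Fin 2) ℝ)) :=
    Subgroup.map_mono (Prod_Gamma1_le (Dvd.intro_left N' rfl))
  exact ⟨CuspForm.mcast (by norm_num)
    ((Prod_cuspRestrict h1 f').mulModularForm (Prod_modRestrict h2 E)), rfl⟩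

theorem Prod_one_mem (N : ℕ) : (1 : ℝ) ∈ (Gamma1 N : Subgroup (GL (Fin 2) ℝ)).strictPeriods := by
  rw [strictPeriods_Gamma1]
  exact AddSubgroup.mem_zmultiples 1

/-- `UpperHalfPlane.qExpansion_mul`, `ModularFormClass.analyticAt_cuspFunction_zero`,
`strictPeriods_Gamma1`, `PowerSeries.coeff_mul`. -/
theorem Prod_qCoeff {N' ℓ : ℕ} (f' : CuspForm (Gamma1 N') 1) (E : ModularForm (Gamma1 ℓ) 1)
    (n : ℕ) : ModularFormClass.qCoeff ((⇑f' : ℍ → ℂ) * ⇑E) n =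
      ∑ ij ∈ Finset.HasAntidiagonal.antidiagonal n,
        ModularFormClass.qCoeff f' ij.1 * ModularFormClass.qCoeff E ij.2 := by
  unfold ModularFormClass.qCoeff
  rw [UpperHalfPlane.qExpansion_mul
    (ModularFormClass.analyticAt_cuspFunction_zero f' one_pos (Prod_one_mem N'))
    (ModularFormClass.analyticAt_cuspFunction_zero E one_pos (Prod_one_mem ℓ)),
    PowerSeries.coeff_mul]

/-- `CuspFormClass.qExpansion_coeff_zero`. -/
theorem Prod_qCoeff_zero {N : ℕ} {k : ℤ} (f : CuspForm (Gamma1 N) k) :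
    ModularFormClass.qCoeff f 0 = 0 :=
  CuspFormClass.qExpansion_coeff_zero f one_pos (Prod_one_mem N)

/-- `d` is a unit modulo `M` for `γ ∈ Γ₀(M)`. -/
theorem Prod_isUnit {M : ℕ} {γ : SL(2, ℤ)} (hγ : γ ∈ Gamma0 M) :
    IsUnit (((γ 1 1 : ℤ)) : ZMod M) := by
  rw [Gamma0_mem] at hγ
  have hdet := Matrix.SpecialLinearGroup.det_coe γ
  rw [Matrix.det_fin_two] at hdet
  have h2 := congrArg (fun z : ℤ => (z : ZMod M)) hdet
  simp only [Int.cast_sub, Int.cast_mul, Int.cast_one] at h2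
  rw [hγ, mul_zero, sub_zero] at h2
  exact IsUnit.of_mul_eq_one _ (by rw [mul_comm]; exact h2)

/-- `ModularForm.mul_slash_SL2`. -/
theorem Prod_hasNeb {N' ℓ : ℕ} {χ₁ : ZMod N' → ℂ} {χ₂ : ZMod ℓ → ℂ} {f g : ℍ → ℂ}
    (h1 : HasNeb N' 1 χ₁ f) (h2 : HasNeb ℓ 1 χ₂ g) (χ : ZMod (N' * ℓ) → ℂ)
    (hχ : ∀ d : ℤ, IsUnit (d : ZMod (N' * ℓ)) →
      χ (d : ZMod (N' * ℓ)) = χ₁ (d : ZMod N') * χ₂ (d : ZMod ℓ)) :
    HasNeb (N' * ℓ) 2 χ (f * g) := by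
  intro γ hγ
  have e1 := h1 γ (Prod_Gamma0_le (Dvd.intro ℓ rfl) hγ)
  have e2 := h2 γ (Prod_Gamma0_le (Dvd.intro_left N' rfl) hγ)
  have e3 := ModularForm.mul_slash_SL2 1 1 γ f g
  have e4 : ((1 : ℤ) + 1) = 2 := by norm_num
  rw [e4] at e3
  rw [e3, e1, e2, hχ _ (Prod_isUnit hγ)]
  ext z
  simp only [Pi.mul_apply, Pi.smul_apply, smul_eq_mul]
  ring

end Fermat.Agent.S48.Geo
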